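import Mathlib
import Fermat.Prelude.Def_ModularCurve_GenusNumerics
import Fermat.Prelude.Def_ModularCurve_PeriodHomPair
import Fermat.Prelude.Def_ModularCurve_ArithmeticGalois
import Fermat.Prelude.Def_AlgebraicCurve_CanonicalDivisor
import Fermat.Agent.S24.h59_Gen
import Fermat.Agent.S24.h78_Field

/-!
# Project S2021 (statements S20 + S21): shared definitions

`q`-series objects used by block E (existence of weight-2 cusp forms).
-/

set_option autoImplicit false

open UpperHalfPlane CongruenceSubgroup ModularCurve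
open ModularForm EisensteinSeries
open scoped MatrixGroups
open Fermat.Agent.S24

namespace Fermat.Agent.S2021

/-- Power series as Laurent series. -/
noncomputable abbrev ofPS : PowerSeries ℂ →+* LaurentSeries ℂ := HahnSeries.ofPowerSeries ℤ ℂ

/-- `j = E₄³/Δ` as a Laurent series (analytic side). -/
noncomputable def Jser : LaurentSeries ℂ :=
  ofPS (qExpansion 1 E₄) ^ 3 * (ofPS (qExpansion 1 (⇑CuspForm.discriminant)))⁻¹

/-- `-E₄²E₆/Δ` as a Laurent series (this is `q dj/dq`, but that fact is never needed). -/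
noncomputable def Tser : LaurentSeries ℂ :=
  -(ofPS (qExpansion 1 E₄) ^ 2 * ofPS (qExpansion 1 E₆)) *
    (ofPS (qExpansion 1 (⇑CuspForm.discriminant)))⁻¹

/-- Coefficientwise embedding of Laurent series along helper78's fixed `h78_iota : ℚ̄ →+* ℂ`. -/
noncomputable def ιL : LaurentSeries (AlgebraicClosure ℚ) →+* LaurentSeries ℂ :=
  coeffMap h78_iota

/-- `x` is the `q`-expansion of a ratio `A/B` of modular forms on `Γ₀(N)` of weights `w + b`
and `b`. -/
def IsRatio (N : ℕ) (w : ℤ) (x : LaurentSeries ℂ) : Prop :=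
  ∃ (b : ℤ) (A : ModularForm (Gamma0 N) (w + b)) (B : ModularForm (Gamma0 N) b), B ≠ 0 ∧
    x * ofPS (qExpansion 1 B) = ofPS (qExpansion 1 A)

end Fermat.Agent.S2021
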